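/-
S18 helper (helper739): piece MOD.1 of squad S18/S05 in the exact frozen shape
`Fermat.Agent.S18.Sq05.ModFiniteStatement`.
-/
import Mathlib
import Fermat.Agent.S18.Sq05.Spec
import Fermat.Agent.S18.H739.ModFinite

set_option autoImplicit false

namespace Fermat.Agent.S18.H739

/-- **MOD.1** (frozen statement of squad S18/S05). -/
theorem modFiniteStatement : Fermat.Agent.S18.Sq05.ModFiniteStatement :=
  modFinite

end Fermat.Agent.S18.H739
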